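/-
Row 38 (peu ramifiée, step (d)), K(u) side, lemma L3 (helper64), part 1:
**values at `t = 0` of elements of `k(t)`**, algebraically.

`KtVal t c x` : `x · q(t) = p(t)` with `p, q ∈ k[X]`, `q(0) = 1`, `p(0) = c`
("`x ∈ k[t]_{(t)}` and `x ≡ c mod t`").  Closed under `+`, `·`, inverses of units; at every
place `Q` with `ord_Q t > 0` such an `x` is regular with value `c`.
-/
import Mathlib
import Fermat.Agent.Lib.FF.Value
import Fermat.Agent.E.Desc.Kp.Slope.Ord

set_option autoImplicit false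
set_option linter.unusedSectionVars false
set_option linter.unusedVariables false

noncomputable section

namespace Fermat.Agent.PeuD

open Polynomial AlgebraicCurve Fermat.Agent.FF Fermat.Agent.RR

section Val

variable {k L : Type*} [Field k] [Field L] [Algebra k L]

/-- `x ∈ L` is regular at `t = 0` with value `c`: `x · q(t) = p(t)`, `q(0) = 1`, `p(0) = c`. -/
def KtVal (t : L) (c : k) (x : L) : Prop :=
  ∃ p q : k[X], q.coeff 0 = 1 ∧ x * aeval t q = aeval t p ∧ p.coeff 0 = c

theorem KtVal.const (t : L) (c : k) : KtVal t c (algebraMap k L c) :=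
  ⟨C c, 1, by simp, by simp, by simp⟩

theorem KtVal.zero (t : L) : KtVal t (0 : k) (0 : L) :=
  ⟨0, 1, by simp, by simp, by simp⟩

theorem KtVal.one (t : L) : KtVal t (1 : k) (1 : L) :=
  ⟨1, 1, by simp, by simp, by simp⟩

/-- a polynomial in `t`. -/
theorem KtVal.of_aeval (t : L) (p : k[X]) : KtVal t (p.coeff 0) (aeval t p) :=
  ⟨p, 1, by simp, by simp, rfl⟩

theorem KtVal.add {t : L} {c d : k} {x y : L} (hx : KtVal t c x) (hy : KtVal t d y) :
    KtVal t (c + d) (x + y) := by
  obtain ⟨p₁, q₁, h1, h2, h3⟩ := hx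
  obtain ⟨p₂, q₂, h4, h5, h6⟩ := hy
  refine ⟨p₁ * q₂ + p₂ * q₁, q₁ * q₂, ?_, ?_, ?_⟩
  · rw [mul_coeff_zero, h1, h4, mul_one]
  · simp only [map_mul, map_add]
    rw [← h2, ← h5]
    ring
  · rw [coeff_add, mul_coeff_zero, mul_coeff_zero, h1, h3, h4, h6]
    ring

theorem KtVal.mul {t : L} {c d : k} {x y : L} (hx : KtVal t c x) (hy : KtVal t d y) :
    KtVal t (c * d) (x * y) := by
  obtain ⟨p₁, q₁, h1, h2, h3⟩ := hx
  obtain ⟨p₂, q₂, h4, h5, h6⟩ := hy
  refine ⟨p₁ * p₂, q₁ * q₂, ?_, ?_, ?_⟩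
  · rw [mul_coeff_zero, h1, h4, mul_one]
  · simp only [map_mul]
    rw [← h2, ← h5]
    ring
  · rw [mul_coeff_zero, h3, h6]

theorem KtVal.neg {t : L} {c : k} {x : L} (hx : KtVal t c x) : KtVal t (-c) (-x) := by
  obtain ⟨p₁, q₁, h1, h2, h3⟩ := hx
  refine ⟨-p₁, q₁, h1, ?_, ?_⟩
  · rw [map_neg, ← h2]
    ring
  · rw [coeff_neg, h3]

theorem KtVal.sub {t : L} {c d : k} {x y : L} (hx : KtVal t c x) (hy : KtVal t d y) :
    KtVal t (c - d) (x - y) := by
  rw [sub_eq_add_neg, sub_eq_add_neg]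
  exact hx.add hy.neg

theorem KtVal.sum {ι : Type*} {t : L} (s : Finset ι) (c : ι → k) (x : ι → L)
    (h : ∀ i ∈ s, KtVal t (c i) (x i)) : KtVal t (∑ i ∈ s, c i) (∑ i ∈ s, x i) := by
  classical
  induction s using Finset.induction_on with
  | empty => simpa using KtVal.zero (k := k) t
  | insert a s ha ih =>
    rw [Finset.sum_insert ha, Finset.sum_insert ha]
    exact (h a (Finset.mem_insert_self a s)).add
      (ih fun i hi => h i (Finset.mem_insert_of_mem hi))

/-- inverses of units. -/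
theorem KtVal.inv {t : L} (ht : Transcendental k t) {c : k} (hc : c ≠ 0) {x : L}
    (hx : KtVal t c x) : KtVal t c⁻¹ x⁻¹ := by
  obtain ⟨p, q, h1, h2, h3⟩ := hx
  have hp0 : p ≠ 0 := by
    rintro rfl
    rw [coeff_zero] at h3
    exact hc h3.symm
  have hpt : aeval t p ≠ 0 := fun h => hp0 ((transcendental_iff.mp ht) p h)
  have hx0 : x ≠ 0 := by
    rintro rfl
    rw [zero_mul] at h2
    exact hpt h2.symm
  refine ⟨C c⁻¹ * q, C c⁻¹ * p, ?_, ?_, ?_⟩
  · rw [mul_coeff_zero, coeff_C_zero, h3, inv_mul_cancel₀ hc]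
  · simp only [map_mul, aeval_C]
    rw [← h2]
    field_simp
  · rw [mul_coeff_zero, coeff_C_zero, h1, mul_one]

/-- the value is unique. -/
theorem KtVal.unique {t : L} (ht : Transcendental k t) {c d : k} {x : L}
    (hx : KtVal t c x) (hy : KtVal t d x) : c = d := by
  obtain ⟨p₁, q₁, h1, h2, h3⟩ := hx
  obtain ⟨p₂, q₂, h4, h5, h6⟩ := hy
  have e : aeval t (p₁ * q₂) = aeval t (p₂ * q₁) := by
    simp only [map_mul]
    rw [← h2, ← h5]
    ring
  have e' : p₁ * q₂ = p₂ * q₁ := by
    have h0 : aeval t (p₁ * q₂ - p₂ * q₁) = 0 := by rw [map_sub, e, sub_self]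
    exact sub_eq_zero.mp ((transcendental_iff.mp ht) _ h0)
  have := congrArg (fun r : k[X] => r.coeff 0) e'
  simp only [mul_coeff_zero] at this
  rw [h3, h4, h6, h1, mul_one, mul_one] at this
  exact this

end Val

section Place

variable {k L : Type*} [Field k] [Field L] [Algebra k L]

/-- polynomials in a regular element are regular. -/
theorem kt_aeval_mem (Q : Place k L) {t : L} (ht : t ∈ Q.toValuationSubring) (p : k[X]) :
    aeval t p ∈ Q.toValuationSubring := by
  induction p using Polynomial.induction_on with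
  | C a =>
    rw [aeval_C]
    exact Q.algebraMap_mem' a
  | add p q hp hq =>
    rw [map_add]
    exact add_mem hp hq
  | monomial n a ih =>
    rw [pow_succ, ← mul_assoc, map_mul, aeval_X]
    exact mul_mem ih ht

/-- the value of a polynomial in a regular element. -/
theorem kt_valueAt_aeval (h : IsRRField k L) (Q : Place k L) {t : L}
    (ht : t ∈ Q.toValuationSubring) (p : k[X]) :
    valueAt h Q (aeval t p) = p.eval (valueAt h Q t) := by
  induction p using Polynomial.induction_on with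
  | C a =>
    rw [aeval_C, valueAt_algebraMap, eval_C]
  | add p q hp hq =>
    rw [map_add, valueAt_add h Q (kt_aeval_mem Q ht p) (kt_aeval_mem Q ht q), hp, hq, eval_add]
  | monomial n a ih =>
    rw [pow_succ, ← mul_assoc, map_mul, aeval_X,
      valueAt_mul h Q (kt_aeval_mem Q ht _) ht, ih]
    simp only [eval_mul, eval_X, eval_pow, eval_C]

/-- **bridge**: an element with `KtVal t c x` is regular with value `c` at every zero of `t`. -/
theorem KtVal.at_place (h : IsRRField k L) {t : L} (ht : Transcendental k t) {c : k} {x : L}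
    (hx : KtVal t c x) (Q : Place k L) (hQ : 0 < Q.ord t) :
    0 ≤ Q.ord x ∧ valueAt h Q x = c := by
  obtain ⟨p, q, h1, h2, h3⟩ := hx
  have htm : t ∈ Q.toValuationSubring := Fermat.Agent.S24Res.mem_of_ord_nonneg Q hQ.le
  have hvt : valueAt h Q t = 0 := by
    apply valueAt_eq_of_ord_pos h Q
    rwa [map_zero, sub_zero]
  have hq0 : q ≠ 0 := by
    rintro rfl
    rw [coeff_zero] at h1
    exact zero_ne_one h1
  have hqt : aeval t q ≠ 0 := fun h0 => hq0 ((transcendental_iff.mp ht) q h0)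
  have hqv : valueAt h Q (aeval t q) = 1 := by
    rw [kt_valueAt_aeval h Q htm, hvt, ← coeff_zero_eq_eval_zero, h1]
  have hpv : valueAt h Q (aeval t p) = c := by
    rw [kt_valueAt_aeval h Q htm, hvt, ← coeff_zero_eq_eval_zero, h3]
  have hqm := kt_aeval_mem Q htm q
  have hpm := kt_aeval_mem Q htm p
  have hqord : Q.ord (aeval t q) = 0 := by
    have h5 : 0 ≤ Q.ord (aeval t q) := Fermat.Agent.S24Res.ord_nonneg_of_mem Q hqm
    rcases h5.lt_or_eq with h6 | h6
    · exfalso
      have h7 := (valueAt_eq_zero_iff h Q hqm).mpr (Or.inr h6)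
      rw [hqv] at h7
      exact one_ne_zero h7
    · exact h6.symm
  have hxe : x = aeval t p * (aeval t q)⁻¹ := by
    rw [← h2, mul_assoc, mul_inv_cancel₀ hqt, mul_one]
  have hinvm : (aeval t q)⁻¹ ∈ Q.toValuationSubring := by
    apply Fermat.Agent.S24Res.mem_of_ord_nonneg
    rw [Q.ord_inv, hqord, neg_zero]
  have hxm : x ∈ Q.toValuationSubring := by
    rw [hxe]
    exact mul_mem hpm hinvm
  refine ⟨Fermat.Agent.S24Res.ord_nonneg_of_mem Q hxm, ?_⟩
  have h8 := valueAt_mul h Q hxm hqm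
  rw [h2, hpv, hqv, mul_one] at h8
  exact h8.symm

end Place

end Fermat.Agent.PeuD
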