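/-
Row 38 (peu ramifiée, step (d)), K(u) side, lemma L3 (helper64), part 2:
the total residue map `kres` of the constants, Gauss' lemma for polynomials in a Gauss
parameter, and the basic reductions of a `SlopeData`.
-/
import Mathlib
import Fermat.Agent.Lib.BadRed.Mod.SeedNodeA
import Fermat.Agent.E.Desc.Kp.SlopeG
import Fermat.Agent.Lib.BadRed.PeuD.KuPF.Val

set_option autoImplicit false
set_option linter.unusedSectionVars false
set_option linter.unusedVariables false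

noncomputable section

namespace Fermat.Agent.PeuD

open Polynomial Fermat.Agent.Deuring Fermat.Agent.BadRed.SeedNode Fermat.Agent.EKp

section Kres

variable {K F k Fk : Type*} [Field K] [Field F] [Algebra K F]
  [Field k] [Field Fk] [Algebra k Fk] (S : ValSetup K F k Fk)

open Classical in
/-- the total residue map of the constants: `res` on `A`, `0` outside. -/
def kres (c : K) : k := if h : c ∈ S.A then S.res ⟨c, h⟩ else 0

theorem kres_of_mem {c : K} (hc : c ∈ S.A) : kres S c = S.res ⟨c, hc⟩ := by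
  unfold kres
  rw [dif_pos hc]

theorem kt_red_algebraMap {c : K} (hc : c ∈ S.A) :
    S.red (algebraMap K F c) = algebraMap k Fk (kres S c) := by
  rw [S.red_algebraMap hc, kres_of_mem S hc]

@[simp]
theorem kres_zero : kres S 0 = 0 := by
  rw [kres_of_mem S (zero_mem _)]
  exact map_zero S.res

@[simp]
theorem kres_one : kres S 1 = 1 := by
  rw [kres_of_mem S (one_mem _)]
  exact map_one S.res

theorem kres_mul {c d : K} (hc : c ∈ S.A) (hd : d ∈ S.A) :
    kres S (c * d) = kres S c * kres S d := by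
  rw [kres_of_mem S hc, kres_of_mem S hd, kres_of_mem S (mul_mem hc hd), ← map_mul]
  rfl

theorem kres_add {c d : K} (hc : c ∈ S.A) (hd : d ∈ S.A) :
    kres S (c + d) = kres S c + kres S d := by
  rw [kres_of_mem S hc, kres_of_mem S hd, kres_of_mem S (add_mem hc hd), ← map_add]
  rfl

theorem kres_neg {c : K} (hc : c ∈ S.A) : kres S (-c) = -kres S c := by
  rw [kres_of_mem S hc, kres_of_mem S (neg_mem hc), ← map_neg]
  rfl

theorem kt_mem_of_le {c : K} (hc : S.A.valuation c ≤ 1) : c ∈ S.A :=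
  (S.A.valuation_le_one_iff c).mp hc

theorem kt_mem_of_lt {c : K} (hc : S.A.valuation c < 1) : c ∈ S.A :=
  kt_mem_of_le S hc.le

/-- non-units reduce to zero. -/
theorem kres_eq_zero_of_lt {c : K} (hc : S.A.valuation c < 1) : kres S c = 0 := by
  have hcA := kt_mem_of_lt S hc
  rcases eq_or_ne c 0 with rfl | hc0
  · exact kres_zero S
  have h1 : S.red (algebraMap K F c) = 0 := by
    rw [S.red_eq_zero_iff (S.algebraMap_mem hcA) ((_root_.map_ne_zero _).mpr hc0), ← map_inv₀,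
      S.mem_Ov_iff, ← S.A.valuation_le_one_iff, map_inv₀]
    intro h2
    have h3 : S.A.valuation c ≠ 0 := (Valuation.ne_zero_iff _).mpr hc0
    have h4 := (inv_le_one₀ (zero_lt_iff.mpr h3)).mp h2
    exact absurd hc (not_lt.mpr h4)
  rw [kt_red_algebraMap S hcA] at h1
  exact (_root_.map_eq_zero _).mp h1

theorem kt_red_algebraMap_of_lt {c : K} (hc : S.A.valuation c < 1) :
    S.red (algebraMap K F c) = 0 := by
  rw [kt_red_algebraMap S (kt_mem_of_lt S hc), kres_eq_zero_of_lt S hc, map_zero]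

/-- **Gauss' lemma**: a polynomial in a Gauss parameter is integral iff its coefficients are. -/
theorem kt_coeff_mem {t : F} (ht : t ∈ S.Ov) (htr : Transcendental k (S.red t)) {p : K[X]}
    (hp : aeval t p ∈ S.Ov) (i : ℕ) : p.coeff i ∈ S.A := by
  rcases eq_or_ne p 0 with rfl | hp0
  · rw [coeff_zero]
    exact zero_mem _
  obtain ⟨c, p₀, hc, hpp, hp₀⟩ := sn_exists_normalize S hp0
  have hR := sn_red_aeval_ne_zero S ht htr hp₀
  have hRi := S.inv_mem_of_red_ne_zero hR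
  have hR0 := S.ne_zero_of_red_ne_zero hR
  have e1 : aeval t p = algebraMap K F c * aeval t (p₀.map (algebraMap S.A K)) := by
    conv_lhs => rw [hpp]
    rw [map_mul, aeval_C]
  have hcA : c ∈ S.A := by
    rw [← S.mem_Ov_iff]
    have : algebraMap K F c = aeval t p * (aeval t (p₀.map (algebraMap S.A K)))⁻¹ := by
      rw [e1, mul_assoc, mul_inv_cancel₀ hR0, mul_one]
    rw [this]
    exact mul_mem hp hRi
  have e2 : p.coeff i = c * ((p₀.coeff i : S.A) : K) := by
    conv_lhs => rw [hpp]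
    rw [coeff_C_mul, coeff_map]
    rfl
  rw [e2]
  exact mul_mem hcA (p₀.coeff i).2

/-- the reduction of a polynomial with integral coefficients. -/
theorem kt_red_aeval {t : F} (ht : t ∈ S.Ov) {p : K[X]} (hp : ∀ i, p.coeff i ∈ S.A) :
    ∃ pbar : k[X], (∀ i, pbar.coeff i = kres S (p.coeff i)) ∧ aeval t p ∈ S.Ov ∧
      S.red (aeval t p) = aeval (S.red t) pbar := by
  have hl : p ∈ lifts (algebraMap S.A K) := by
    rw [lifts_iff_coeff_lifts]
    intro n
    exact ⟨⟨p.coeff n, hp n⟩, rfl⟩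
  obtain ⟨q, rfl⟩ := (mem_lifts _).mp hl
  refine ⟨q.map S.res, ?_, (sn_red_aeval S ht q).1, (sn_red_aeval S ht q).2⟩
  intro i
  rw [coeff_map, kres_of_mem S (hp i)]
  congr 1
  apply Subtype.ext
  exact (coeff_map (algebraMap S.A K) i).symm

end Kres

section Slope

variable {K F k Fk₁ Fk₂ : Type*} [Field K] [Field F] [Algebra K F]
  [Field k] [Field Fk₁] [Algebra k Fk₁] [Field Fk₂] [Algebra k Fk₂]
  {S₁ : ValSetup K F k Fk₁} {S₂ : ValSetup K F k Fk₂} {u : F} {ϖ : K}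

theorem kt_u_ne_zero (h : SlopeData S₁ S₂ u ϖ) : u ≠ 0 := by
  rintro rfl
  exact h.u_tr (by rw [S₁.red_zero]; exact isAlgebraic_zero)

theorem kt_red_u_ne_zero (h : SlopeData S₁ S₂ u ϖ) : S₁.red u ≠ 0 := by
  intro h0
  exact h.u_tr (by rw [h0]; exact isAlgebraic_zero)

theorem kt_red_u'_ne_zero (h : SlopeData S₁ S₂ u ϖ) : S₂.red (algebraMap K F ϖ / u) ≠ 0 := by
  intro h0
  exact h.u_tr₂ (by rw [h0]; exact isAlgebraic_zero)

theorem kt_varpi_lt₂ (h : SlopeData S₁ S₂ u ϖ) : S₂.A.valuation ϖ < 1 := by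
  rw [← h.A_eq]
  exact h.varpi_lt

/-- `u = ϖ · u'⁻¹`. -/
theorem kt_u_eq (h : SlopeData S₁ S₂ u ϖ) :
    u = algebraMap K F ϖ * (algebraMap K F ϖ / u)⁻¹ := by
  have hu := kt_u_ne_zero h
  have hϖ : algebraMap K F ϖ ≠ 0 := (_root_.map_ne_zero _).mpr h.varpi_ne
  field_simp

theorem kt_u_mem₂ (h : SlopeData S₁ S₂ u ϖ) : u ∈ S₂.Ov := by
  rw [kt_u_eq h]
  exact mul_mem (S₂.algebraMap_mem (kt_mem_of_lt S₂ (kt_varpi_lt₂ h)))
    (S₂.inv_mem_of_red_ne_zero (kt_red_u'_ne_zero h))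

theorem kt_red_u₂ (h : SlopeData S₁ S₂ u ϖ) : S₂.red u = 0 := by
  rw [kt_u_eq h, S₂.red_mul (S₂.algebraMap_mem (kt_mem_of_lt S₂ (kt_varpi_lt₂ h)))
    (S₂.inv_mem_of_red_ne_zero (kt_red_u'_ne_zero h)),
    kt_red_algebraMap_of_lt S₂ (kt_varpi_lt₂ h), zero_mul]

theorem kt_uinv_mem₁ (h : SlopeData S₁ S₂ u ϖ) : u⁻¹ ∈ S₁.Ov :=
  S₁.inv_mem_of_red_ne_zero (kt_red_u_ne_zero h)

theorem kt_red_uinv₁ (h : SlopeData S₁ S₂ u ϖ) : S₁.red u⁻¹ = (S₁.red u)⁻¹ :=
  S₁.red_inv h.u_mem (kt_uinv_mem₁ h) (kt_u_ne_zero h)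

theorem kt_u'inv_mem₂ (h : SlopeData S₁ S₂ u ϖ) : (algebraMap K F ϖ / u)⁻¹ ∈ S₂.Ov :=
  S₂.inv_mem_of_red_ne_zero (kt_red_u'_ne_zero h)

end Slope

end Fermat.Agent.PeuD
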