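/-
Row 38 (peu ramifiée, step (d)), K(u) side, lemma L3 (helper64), part 3:
**Laurent polynomials**.  `σ = N(u) / u ^ m` integral at both Gauss valuations of a `SlopeData`:
then `red₁ σ` is a polynomial in `ū` and `red₂ σ` is a polynomial in `ū'` (`u' = ϖ / u`), and
both have the same constant term `res (N_m)`.
-/
import Mathlib
import Fermat.Agent.Lib.BadRed.PeuD.KuPF.Red

set_option autoImplicit false
set_option linter.unusedSectionVars false
set_option linter.unusedVariables false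

noncomputable section

namespace Fermat.Agent.PeuD

open Polynomial Fermat.Agent.Deuring Fermat.Agent.BadRed.SeedNode Fermat.Agent.EKp

section Pow

variable {K F k Fk : Type*} [Field K] [Field F] [Algebra K F]
  [Field k] [Field Fk] [Algebra k Fk] (S : ValSetup K F k Fk)

theorem kres_pow {c : K} (hc : c ∈ S.A) (n : ℕ) : kres S (c ^ n) = kres S c ^ n := by
  induction n with
  | zero => simp
  | succ n ih => rw [pow_succ, pow_succ, kres_mul S (pow_mem hc n) hc, ih]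

/-- positive powers of a non-unit reduce to zero. -/
theorem kres_pow_eq_zero {c : K} (hc : S.A.valuation c < 1) {n : ℕ} (hn : 0 < n) :
    kres S (c ^ n) = 0 := by
  rw [kres_pow S (kt_mem_of_lt S hc), kres_eq_zero_of_lt S hc, zero_pow hn.ne']

/-- a polynomial all of whose coefficients below `m` vanish is `X ^ m · P`, and the constant
term of `P` is the `m`-th coefficient. -/
theorem kt_exists_X_pow_mul {R : Type*} [CommRing R] (p : R[X]) (m : ℕ)
    (h : ∀ i < m, p.coeff i = 0) : ∃ P : R[X], p = X ^ m * P ∧ P.coeff 0 = p.coeff m := by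
  obtain ⟨P, hP⟩ := (X_pow_dvd_iff.mpr h)
  refine ⟨P, hP, ?_⟩
  have := coeff_X_pow_mul P m 0
  rw [zero_add] at this
  rw [hP, this]

end Pow

section Laurent

variable {K F k Fk₁ Fk₂ : Type*} [Field K] [Field F] [Algebra K F]
  [Field k] [Field Fk₁] [Algebra k Fk₁] [Field Fk₂] [Algebra k Fk₂]
  {S₁ : ValSetup K F k Fk₁} {S₂ : ValSetup K F k Fk₂} {u : F} {ϖ : K}

/-- the reflected polynomial `M(u') = ϖ⁻ᵐ · u'ᴰ · N(ϖ / u')`. -/
def ktReflect (ϖ : K) (m D : ℕ) (N : K[X]) : K[X] :=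
  C ((ϖ ^ m)⁻¹) * reflect D (N.comp (C ϖ * X))

theorem ktReflect_coeff (ϖ : K) (m D : ℕ) (N : K[X]) {i : ℕ} (hi : i ≤ D) :
    (ktReflect ϖ m D N).coeff (D - i) = (ϖ ^ m)⁻¹ * (N.coeff i * ϖ ^ i) := by
  unfold ktReflect
  rw [coeff_C_mul, coeff_reflect, revAt_le (Nat.sub_le D i), Nat.sub_sub_self hi,
    comp_C_mul_X_coeff]

theorem ktReflect_aeval (h : SlopeData S₁ S₂ u ϖ) (m : ℕ) (N : K[X]) :
    aeval (algebraMap K F ϖ / u) (ktReflect ϖ m (N.natDegree + m) N) =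
      aeval u N * (u ^ m)⁻¹ * (algebraMap K F ϖ / u) ^ N.natDegree := by
  have hu := kt_u_ne_zero h
  have hϖ : algebraMap K F ϖ ≠ 0 := (_root_.map_ne_zero _).mpr h.varpi_ne
  set u' : F := algebraMap K F ϖ / u with hu'
  have hu'0 : u' ≠ 0 := div_ne_zero hϖ hu
  have hdeg : (N.comp (C ϖ * X)).natDegree ≤ N.natDegree + m := by
    rw [natDegree_comp, natDegree_C_mul_X ϖ h.varpi_ne, mul_one]
    exact Nat.le_add_right _ _
  let _ : Invertible (u'⁻¹) := invertibleOfNonzero (inv_ne_zero hu'0)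
  have h1 := eval₂_reflect_mul_pow (algebraMap K F) (u'⁻¹) (N.natDegree + m)
    (N.comp (C ϖ * X)) hdeg
  rw [invOf_eq_inv, inv_inv] at h1
  have h2 : eval₂ (algebraMap K F) u'⁻¹ (N.comp (C ϖ * X)) = aeval u N := by
    rw [← aeval_def, aeval_comp]
    congr 1
    rw [map_mul, aeval_C, aeval_X, hu']
    field_simp
  rw [h2, ← aeval_def] at h1
  have h3 : aeval u' (reflect (N.natDegree + m) (N.comp (C ϖ * X))) =
      aeval u N * u' ^ (N.natDegree + m) := by
    rw [← h1, mul_assoc, ← mul_pow, inv_mul_cancel₀ hu'0, one_pow, mul_one]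
  have h4 : u' ^ m * u ^ m = algebraMap K F ϖ ^ m := by
    rw [← mul_pow, hu', div_mul_cancel₀ _ hu]
  have h5 : algebraMap K F ((ϖ ^ m)⁻¹) * u' ^ m = (u ^ m)⁻¹ := by
    rw [map_inv₀, map_pow, ← h4, mul_inv, mul_comm (u' ^ m)⁻¹, mul_assoc,
      inv_mul_cancel₀ (pow_ne_zero m hu'0), mul_one]
  unfold ktReflect
  rw [map_mul, aeval_C, h3, pow_add, ← h5]
  ring

/-- **Laurent polynomials**: `σ · u ^ m = N(u)`, `σ` integral at both Gauss valuations. -/
theorem kt_laurent (h : SlopeData S₁ S₂ u ϖ) (hk : ∀ c : K, kres S₁ c = kres S₂ c)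
    {σ : F} (h₁ : σ ∈ S₁.Ov) (h₂ : σ ∈ S₂.Ov) {N : K[X]} {m : ℕ}
    (hσ : σ * u ^ m = aeval u N) :
    KtVal (S₁.red u) (kres S₁ (N.coeff m)) (S₁.red σ) ∧
      KtVal (S₂.red (algebraMap K F ϖ / u)) (kres S₁ (N.coeff m)) (S₂.red σ) := by
  have hu := kt_u_ne_zero h
  have hϖ : algebraMap K F ϖ ≠ 0 := (_root_.map_ne_zero _).mpr h.varpi_ne
  have hϖA₁ : ϖ ∈ S₁.A := kt_mem_of_lt S₁ h.varpi_lt
  have hϖA₂ : ϖ ∈ S₂.A := kt_mem_of_lt S₂ (kt_varpi_lt₂ h)
  have hA : ∀ c : K, c ∈ S₂.A ↔ c ∈ S₁.A := fun c => by rw [h.A_eq]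
  -- first valuation: the coefficients of `N` are integral
  have hN1 : aeval u N ∈ S₁.Ov := hσ ▸ mul_mem h₁ (pow_mem h.u_mem m)
  have hc1 : ∀ i, N.coeff i ∈ S₁.A := kt_coeff_mem S₁ h.u_mem h.u_tr hN1
  -- second valuation: the coefficients of the reflected polynomial are integral
  set n := N.natDegree with hn
  set M := ktReflect ϖ m (n + m) N with hM
  have hMe : aeval (algebraMap K F ϖ / u) M = σ * (algebraMap K F ϖ / u) ^ n := by
    rw [hM, hn, ktReflect_aeval h m N, ← hσ, mul_assoc σ, mul_inv_cancel₀ (pow_ne_zero m hu),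
      mul_one]
  have hM2 : aeval (algebraMap K F ϖ / u) M ∈ S₂.Ov := hMe ▸ mul_mem h₂ (pow_mem h.u_mem₂ n)
  have hc2 : ∀ j, M.coeff j ∈ S₂.A := kt_coeff_mem S₂ h.u_mem₂ h.u_tr₂ hM2
  have hc2' : ∀ i ≤ n + m, (ϖ ^ m)⁻¹ * (N.coeff i * ϖ ^ i) ∈ S₁.A := by
    intro i hi
    rw [← hA, ← ktReflect_coeff ϖ m (n + m) N hi]
    exact hc2 _
  constructor
  · -- the first reduction
    obtain ⟨Nbar, hNbar, -, hred⟩ := kt_red_aeval S₁ h.u_mem hc1
    have hlow : ∀ i < m, Nbar.coeff i = 0 := by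
      intro i hi
      rw [hNbar]
      have e : N.coeff i = (ϖ ^ m)⁻¹ * (N.coeff i * ϖ ^ i) * ϖ ^ (m - i) := by
        have : ϖ ^ m = ϖ ^ i * ϖ ^ (m - i) := by rw [← pow_add]; congr 1; omega
        rw [this]
        have hϖi : ϖ ^ i ≠ 0 := pow_ne_zero _ h.varpi_ne
        have hϖmi : ϖ ^ (m - i) ≠ 0 := pow_ne_zero _ h.varpi_ne
        field_simp
      rw [e, kres_mul S₁ (hc2' i (by omega)) (pow_mem hϖA₁ _),
        kres_pow_eq_zero S₁ h.varpi_lt (by omega), mul_zero]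
    obtain ⟨P₁, hP₁, hP₁0⟩ := kt_exists_X_pow_mul Nbar m hlow
    have e1 : S₁.red σ * S₁.red u ^ m = S₁.red u ^ m * aeval (S₁.red u) P₁ := by
      have e0 : S₁.red (σ * u ^ m) = S₁.red σ * S₁.red u ^ m := by
        rw [S₁.red_mul h₁ (pow_mem h.u_mem m), S₁.red_pow h.u_mem]
      rw [← e0, hσ, hred, hP₁, map_mul, map_pow, aeval_X]
    have e2 : S₁.red σ = aeval (S₁.red u) P₁ := by
      have h0 : S₁.red u ^ m ≠ 0 := pow_ne_zero _ (kt_red_u_ne_zero h)
      rw [mul_comm] at e1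
      exact mul_left_cancel₀ h0 e1
    rw [e2, ← hNbar m, ← hP₁0]
    exact KtVal.of_aeval _ P₁
  · -- the second reduction
    obtain ⟨Mbar, hMbar, -, hred⟩ := kt_red_aeval S₂ h.u_mem₂ hc2
    have hlow : ∀ j < n, Mbar.coeff j = 0 := by
      intro j hj
      rw [hMbar]
      have hj' : j = (n + m) - (n + m - j) := by omega
      have e : M.coeff j = N.coeff (n + m - j) * ϖ ^ (n - j) := by
        rw [hj', hM, ktReflect_coeff ϖ m (n + m) N (Nat.sub_le _ _), ← hj']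
        have : ϖ ^ (n + m - j) = ϖ ^ m * ϖ ^ (n - j) := by rw [← pow_add]; congr 1; omega
        rw [this]
        have hϖm : ϖ ^ m ≠ 0 := pow_ne_zero _ h.varpi_ne
        field_simp
      rw [e, kres_mul S₂ ((hA _).mpr (hc1 _)) (pow_mem hϖA₂ _),
        kres_pow_eq_zero S₂ (kt_varpi_lt₂ h) (by omega), mul_zero]
    obtain ⟨P₂, hP₂, hP₂0⟩ := kt_exists_X_pow_mul Mbar n hlow
    have e1 : S₂.red σ * S₂.red (algebraMap K F ϖ / u) ^ n =
        S₂.red (algebraMap K F ϖ / u) ^ n * aeval (S₂.red (algebraMap K F ϖ / u)) P₂ := by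
      have e0 : S₂.red (σ * (algebraMap K F ϖ / u) ^ n) =
          S₂.red σ * S₂.red (algebraMap K F ϖ / u) ^ n := by
        rw [S₂.red_mul h₂ (pow_mem h.u_mem₂ n), S₂.red_pow h.u_mem₂]
      rw [← e0, ← hMe, hred, hP₂, map_mul, map_pow, aeval_X]
    have e2 : S₂.red σ = aeval (S₂.red (algebraMap K F ϖ / u)) P₂ := by
      have h0 : S₂.red (algebraMap K F ϖ / u) ^ n ≠ 0 := pow_ne_zero _ (kt_red_u'_ne_zero h)
      rw [mul_comm] at e1
      exact mul_left_cancel₀ h0 e1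
    have e3 : M.coeff n = N.coeff m := by
      have hn' : n = (n + m) - m := by omega
      conv_lhs => rw [hn']
      rw [hM, ktReflect_coeff ϖ m (n + m) N (Nat.le_add_left _ _)]
      have hϖm : ϖ ^ m ≠ 0 := pow_ne_zero _ h.varpi_ne
      field_simp
    rw [e2, hk, ← e3, ← hMbar n, ← hP₂0]
    exact KtVal.of_aeval _ P₂

end Laurent

end Fermat.Agent.PeuD
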