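/-
Row 38 (peu ramifiée, step (d)), K(u) side, lemma L3 (helper64), part 4:
`KtPair c₁ c₂ x` (`x` integral at both Gauss valuations, value `c₁` of `red₁ x` at `ū = 0`, value
`c₂` of `red₂ x` at `ū' = 0`), its algebra, and the three explicit families:

* `1 - u / d`, `v(d) ≥ 0 ≥ ...` (pole outside the annulus, `|d| ≥ 1`)  : values `(1, 1)`;
* `1 - d / u`, `|d| ≤ |ϖ|` (zero inside)                                : values `(1, 1)`;
* `ρ / (u - a)`, `|ϖ| < |a| < 1`, `|ρ| ≤ |a|` (pole in the open annulus) : values `(0, -res (ρ / a))`.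
-/
import Mathlib
import Fermat.Agent.Lib.BadRed.PeuD.KuPF.Laurent

set_option autoImplicit false
set_option linter.unusedSectionVars false
set_option linter.unusedVariables false

noncomputable section

namespace Fermat.Agent.PeuD

open Polynomial Fermat.Agent.Deuring Fermat.Agent.BadRed.SeedNode Fermat.Agent.EKp

variable {K F k Fk₁ Fk₂ : Type*} [Field K] [Field F] [Algebra K F]
  [Field k] [Field Fk₁] [Algebra k Fk₁] [Field Fk₂] [Algebra k Fk₂]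
  {S₁ : ValSetup K F k Fk₁} {S₂ : ValSetup K F k Fk₂} {u : F} {ϖ : K}

/-- integral at both Gauss valuations, with values `c₁` (at `ū = 0`) and `c₂` (at `ū' = 0`). -/
def KtPair (S₁ : ValSetup K F k Fk₁) (S₂ : ValSetup K F k Fk₂) (u : F) (ϖ : K) (c₁ c₂ : k)
    (x : F) : Prop :=
  x ∈ S₁.Ov ∧ x ∈ S₂.Ov ∧ KtVal (S₁.red u) c₁ (S₁.red x) ∧
    KtVal (S₂.red (algebraMap K F ϖ / u)) c₂ (S₂.red x)

theorem KtPair.add {c₁ c₂ d₁ d₂ : k} {x y : F} (hx : KtPair S₁ S₂ u ϖ c₁ c₂ x)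
    (hy : KtPair S₁ S₂ u ϖ d₁ d₂ y) : KtPair S₁ S₂ u ϖ (c₁ + d₁) (c₂ + d₂) (x + y) := by
  obtain ⟨h1, h2, h3, h4⟩ := hx
  obtain ⟨h5, h6, h7, h8⟩ := hy
  refine ⟨add_mem h1 h5, add_mem h2 h6, ?_, ?_⟩
  · rw [S₁.red_add h1 h5]
    exact h3.add h7
  · rw [S₂.red_add h2 h6]
    exact h4.add h8

theorem KtPair.mul {c₁ c₂ d₁ d₂ : k} {x y : F} (hx : KtPair S₁ S₂ u ϖ c₁ c₂ x)
    (hy : KtPair S₁ S₂ u ϖ d₁ d₂ y) : KtPair S₁ S₂ u ϖ (c₁ * d₁) (c₂ * d₂) (x * y) := by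
  obtain ⟨h1, h2, h3, h4⟩ := hx
  obtain ⟨h5, h6, h7, h8⟩ := hy
  refine ⟨mul_mem h1 h5, mul_mem h2 h6, ?_, ?_⟩
  · rw [S₁.red_mul h1 h5]
    exact h3.mul h7
  · rw [S₂.red_mul h2 h6]
    exact h4.mul h8

theorem KtPair.neg {c₁ c₂ : k} {x : F} (hx : KtPair S₁ S₂ u ϖ c₁ c₂ x) :
    KtPair S₁ S₂ u ϖ (-c₁) (-c₂) (-x) := by
  obtain ⟨h1, h2, h3, h4⟩ := hx
  refine ⟨neg_mem h1, neg_mem h2, ?_, ?_⟩
  · rw [S₁.red_neg h1]
    exact h3.neg
  · rw [S₂.red_neg h2]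
    exact h4.neg

theorem KtPair.sub {c₁ c₂ d₁ d₂ : k} {x y : F} (hx : KtPair S₁ S₂ u ϖ c₁ c₂ x)
    (hy : KtPair S₁ S₂ u ϖ d₁ d₂ y) : KtPair S₁ S₂ u ϖ (c₁ - d₁) (c₂ - d₂) (x - y) := by
  rw [sub_eq_add_neg, sub_eq_add_neg, sub_eq_add_neg]
  exact hx.add hy.neg

theorem KtPair.zero : KtPair S₁ S₂ u ϖ 0 0 (0 : F) :=
  ⟨zero_mem _, zero_mem _, by rw [S₁.red_zero]; exact KtVal.zero _,
    by rw [S₂.red_zero]; exact KtVal.zero _⟩

theorem KtPair.one : KtPair S₁ S₂ u ϖ 1 1 (1 : F) :=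
  ⟨one_mem _, one_mem _, by rw [S₁.red_one]; exact KtVal.one _,
    by rw [S₂.red_one]; exact KtVal.one _⟩

theorem KtPair.sum {ι : Type*} (s : Finset ι) (c₁ c₂ : ι → k) (x : ι → F)
    (h : ∀ i ∈ s, KtPair S₁ S₂ u ϖ (c₁ i) (c₂ i) (x i)) :
    KtPair S₁ S₂ u ϖ (∑ i ∈ s, c₁ i) (∑ i ∈ s, c₂ i) (∑ i ∈ s, x i) := by
  classical
  induction s using Finset.induction_on with
  | empty => simpa using KtPair.zero (S₁ := S₁) (S₂ := S₂) (u := u) (ϖ := ϖ)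
  | insert a s ha ih =>
    rw [Finset.sum_insert ha, Finset.sum_insert ha, Finset.sum_insert ha]
    exact (h a (Finset.mem_insert_self a s)).add
      (ih fun i hi => h i (Finset.mem_insert_of_mem hi))

/-- a nonzero value forces a nonzero element. -/
theorem KtVal.ne_zero {L : Type*} [Field L] [Algebra k L] {t : L} (ht : Transcendental k t)
    {c : k} (hc : c ≠ 0) {x : L} (hx : KtVal t c x) : x ≠ 0 := by
  rintro rfl
  exact hc (KtVal.unique ht hx (KtVal.zero t))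

theorem KtPair.inv (h : SlopeData S₁ S₂ u ϖ) {c₁ c₂ : k} (hc₁ : c₁ ≠ 0) (hc₂ : c₂ ≠ 0) {x : F}
    (hx : KtPair S₁ S₂ u ϖ c₁ c₂ x) : KtPair S₁ S₂ u ϖ c₁⁻¹ c₂⁻¹ x⁻¹ := by
  obtain ⟨h1, h2, h3, h4⟩ := hx
  have hr1 : S₁.red x ≠ 0 := KtVal.ne_zero h.u_tr hc₁ h3
  have hr2 : S₂.red x ≠ 0 := KtVal.ne_zero h.u_tr₂ hc₂ h4
  have hx0 := S₁.ne_zero_of_red_ne_zero hr1
  have hi1 := S₁.inv_mem_of_red_ne_zero hr1
  have hi2 := S₂.inv_mem_of_red_ne_zero hr2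
  refine ⟨hi1, hi2, ?_, ?_⟩
  · rw [S₁.red_inv h1 hi1 hx0]
    exact h3.inv h.u_tr hc₁
  · rw [S₂.red_inv h2 hi2 hx0]
    exact h4.inv h.u_tr₂ hc₂

section Explicit

theorem kt_mem₂_iff (h : SlopeData S₁ S₂ u ϖ) (c : K) : c ∈ S₂.A ↔ c ∈ S₁.A := by
  rw [h.A_eq]

theorem kt_red₂_algebraMap (h : SlopeData S₁ S₂ u ϖ) (hk : ∀ c : K, kres S₁ c = kres S₂ c)
    {c : K} (hc : c ∈ S₁.A) : S₂.red (algebraMap K F c) = algebraMap k Fk₂ (kres S₁ c) := by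
  rw [kt_red_algebraMap S₂ ((kt_mem₂_iff h c).mpr hc), hk]

/-- constants. -/
theorem KtPair.const (h : SlopeData S₁ S₂ u ϖ) (hk : ∀ c : K, kres S₁ c = kres S₂ c)
    {c : K} (hc : c ∈ S₁.A) : KtPair S₁ S₂ u ϖ (kres S₁ c) (kres S₁ c) (algebraMap K F c) := by
  refine ⟨S₁.algebraMap_mem hc, S₂.algebraMap_mem ((kt_mem₂_iff h c).mpr hc), ?_, ?_⟩
  · rw [kt_red_algebraMap S₁ hc]
    exact KtVal.const _ _
  · rw [kt_red₂_algebraMap h hk hc]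
    exact KtVal.const _ _

/-- constants of positive valuation. -/
theorem KtPair.const_of_lt (h : SlopeData S₁ S₂ u ϖ) (hk : ∀ c : K, kres S₁ c = kres S₂ c)
    {c : K} (hc : S₁.A.valuation c < 1) : KtPair S₁ S₂ u ϖ 0 0 (algebraMap K F c) := by
  have := KtPair.const h hk (kt_mem_of_lt S₁ hc)
  rwa [kres_eq_zero_of_lt S₁ hc] at this

/-- the parameter `t` itself has value `0`. -/
theorem KtVal.self {L : Type*} [Field L] [Algebra k L] (t : L) : KtVal t (0 : k) t := by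
  have := KtVal.of_aeval t (X : k[X])
  rwa [coeff_X_zero, aeval_X] at this

/-- **outer factor** `1 - u / d`, `|d| ≥ 1`. -/
theorem kt_outer (h : SlopeData S₁ S₂ u ϖ) (hk : ∀ c : K, kres S₁ c = kres S₂ c) {d : K}
    (hd : d⁻¹ ∈ S₁.A) : KtPair S₁ S₂ u ϖ 1 1 (1 - u * algebraMap K F d⁻¹) := by
  have hd₂ : d⁻¹ ∈ S₂.A := (kt_mem₂_iff h _).mpr hd
  have hu₂ := kt_u_mem₂ h
  refine ⟨sub_mem (one_mem _) (mul_mem h.u_mem (S₁.algebraMap_mem hd)),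
    sub_mem (one_mem _) (mul_mem hu₂ (S₂.algebraMap_mem hd₂)), ?_, ?_⟩
  · rw [S₁.red_sub (one_mem _) (mul_mem h.u_mem (S₁.algebraMap_mem hd)), S₁.red_one,
      S₁.red_mul h.u_mem (S₁.algebraMap_mem hd), kt_red_algebraMap S₁ hd]
    have := (KtVal.one (k := k) (S₁.red u)).sub
      ((KtVal.self (k := k) (S₁.red u)).mul (KtVal.const (S₁.red u) (kres S₁ d⁻¹)))
    simpa using this
  · rw [S₂.red_sub (one_mem _) (mul_mem hu₂ (S₂.algebraMap_mem hd₂)), S₂.red_one,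
      S₂.red_mul hu₂ (S₂.algebraMap_mem hd₂), kt_red_u₂ h, zero_mul, sub_zero]
    exact KtVal.one _

/-- **inner factor** `1 - d / u`, `|d| ≤ |ϖ|`. -/
theorem kt_inner (h : SlopeData S₁ S₂ u ϖ) (hk : ∀ c : K, kres S₁ c = kres S₂ c) {d : K}
    (hd : S₁.A.valuation d ≤ S₁.A.valuation ϖ) :
    KtPair S₁ S₂ u ϖ 1 1 (1 - algebraMap K F d * u⁻¹) := by
  have hu := kt_u_ne_zero h
  have hϖ : algebraMap K F ϖ ≠ 0 := (_root_.map_ne_zero _).mpr h.varpi_ne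
  have hdlt : S₁.A.valuation d < 1 := lt_of_le_of_lt hd h.varpi_lt
  have hdA : d ∈ S₁.A := kt_mem_of_lt S₁ hdlt
  have hui := kt_uinv_mem₁ h
  have hq : d / ϖ ∈ S₁.A := by
    apply kt_mem_of_le
    rw [map_div₀]
    have h3 : S₁.A.valuation ϖ ≠ 0 := (Valuation.ne_zero_iff _).mpr h.varpi_ne
    exact (div_le_one₀ (zero_lt_iff.mpr h3)).mpr hd
  have hq₂ : d / ϖ ∈ S₂.A := (kt_mem₂_iff h _).mpr hq
  have e : algebraMap K F d * u⁻¹ = algebraMap K F (d / ϖ) * (algebraMap K F ϖ / u) := by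
    rw [map_div₀]
    field_simp
  refine ⟨sub_mem (one_mem _) (mul_mem (S₁.algebraMap_mem hdA) hui), ?_, ?_, ?_⟩
  · rw [e]
    exact sub_mem (one_mem _) (mul_mem (S₂.algebraMap_mem hq₂) h.u_mem₂)
  · rw [S₁.red_sub (one_mem _) (mul_mem (S₁.algebraMap_mem hdA) hui), S₁.red_one,
      S₁.red_mul (S₁.algebraMap_mem hdA) hui, kt_red_algebraMap_of_lt S₁ hdlt, zero_mul, sub_zero]
    exact KtVal.one _
  · rw [e, S₂.red_sub (one_mem _) (mul_mem (S₂.algebraMap_mem hq₂) h.u_mem₂), S₂.red_one,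
      S₂.red_mul (S₂.algebraMap_mem hq₂) h.u_mem₂, kt_red_algebraMap S₂ hq₂]
    have := (KtVal.one (k := k) (S₂.red (algebraMap K F ϖ / u))).sub
      ((KtVal.const (S₂.red (algebraMap K F ϖ / u)) (kres S₂ (d / ϖ))).mul
        (KtVal.self (k := k) (S₂.red (algebraMap K F ϖ / u))))
    simpa using this

/-- **a pole in the open annulus**: `ρ / (u - a)`, `|ϖ| < |a| < 1`, `|ρ| ≤ |a|`. -/
theorem kt_mid (h : SlopeData S₁ S₂ u ϖ) (hk : ∀ c : K, kres S₁ c = kres S₂ c) {a ρ : K}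
    (ha₁ : S₁.A.valuation ϖ < S₁.A.valuation a) (ha₂ : S₁.A.valuation a < 1)
    (hρ : S₁.A.valuation ρ ≤ S₁.A.valuation a) :
    KtPair S₁ S₂ u ϖ 0 (-kres S₁ (ρ / a))
      (algebraMap K F ρ * (u - algebraMap K F a)⁻¹) := by
  have hu := kt_u_ne_zero h
  have hϖ : algebraMap K F ϖ ≠ 0 := (_root_.map_ne_zero _).mpr h.varpi_ne
  have hva0 : S₁.A.valuation a ≠ 0 := fun h0 => by
    rw [h0] at ha₁
    exact not_lt_zero ha₁
  have ha0 : a ≠ 0 := (Valuation.ne_zero_iff _).mp hva0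
  have haF : algebraMap K F a ≠ 0 := (_root_.map_ne_zero _).mpr ha0
  have haA : a ∈ S₁.A := kt_mem_of_lt S₁ ha₂
  have hρlt : S₁.A.valuation ρ < 1 := lt_of_le_of_lt hρ ha₂
  have hρA : ρ ∈ S₁.A := kt_mem_of_lt S₁ hρlt
  have hq : ρ / a ∈ S₁.A := by
    apply kt_mem_of_le
    rw [map_div₀]
    exact (div_le_one₀ (zero_lt_iff.mpr hva0)).mpr hρ
  have hϖa : S₁.A.valuation (ϖ / a) < 1 := by
    rw [map_div₀]
    exact (div_lt_one₀ (zero_lt_iff.mpr hva0)).mpr ha₁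
  -- first valuation
  have hm1 : u - algebraMap K F a ∈ S₁.Ov := sub_mem h.u_mem (S₁.algebraMap_mem haA)
  have hr1 : S₁.red (u - algebraMap K F a) = S₁.red u := by
    rw [S₁.red_sub h.u_mem (S₁.algebraMap_mem haA), kt_red_algebraMap_of_lt S₁ ha₂, sub_zero]
  have hr1' : S₁.red (u - algebraMap K F a) ≠ 0 := by
    rw [hr1]
    exact kt_red_u_ne_zero h
  have hi1 := S₁.inv_mem_of_red_ne_zero hr1'
  -- second valuation
  have hua : u = algebraMap K F a * (algebraMap K F (ϖ / a) * (algebraMap K F ϖ / u)⁻¹) := by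
    rw [map_div₀]
    field_simp
  have hw_mem : algebraMap K F (ϖ / a) * (algebraMap K F ϖ / u)⁻¹ ∈ S₂.Ov :=
    mul_mem (S₂.algebraMap_mem ((kt_mem₂_iff h _).mpr (kt_mem_of_lt S₁ hϖa))) (kt_u'inv_mem₂ h)
  have hw_red : S₂.red (algebraMap K F (ϖ / a) * (algebraMap K F ϖ / u)⁻¹) = 0 := by
    rw [S₂.red_mul (S₂.algebraMap_mem ((kt_mem₂_iff h _).mpr (kt_mem_of_lt S₁ hϖa)))
      (kt_u'inv_mem₂ h), kt_red₂_algebraMap h hk (kt_mem_of_lt S₁ hϖa),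
      kres_eq_zero_of_lt S₁ hϖa, map_zero, zero_mul]
  set w : F := algebraMap K F (ϖ / a) * (algebraMap K F ϖ / u)⁻¹ with hw
  have hw1_mem : w - 1 ∈ S₂.Ov := sub_mem hw_mem (one_mem _)
  have hw1_red : S₂.red (w - 1) = -1 := by
    rw [S₂.red_sub hw_mem (one_mem _), hw_red, S₂.red_one, zero_sub]
  have hw1_ne : S₂.red (w - 1) ≠ 0 := by
    rw [hw1_red]
    exact neg_ne_zero.mpr one_ne_zero
  have hw1_0 := S₂.ne_zero_of_red_ne_zero hw1_ne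
  have hi2 := S₂.inv_mem_of_red_ne_zero hw1_ne
  have e2 : algebraMap K F ρ * (u - algebraMap K F a)⁻¹ = algebraMap K F (ρ / a) * (w - 1)⁻¹ := by
    have e3 : u - algebraMap K F a = algebraMap K F a * (w - 1) := by
      conv_lhs => rw [hua]
      ring
    rw [e3, map_div₀, mul_inv]
    field_simp
  refine ⟨mul_mem (S₁.algebraMap_mem hρA) hi1, ?_, ?_, ?_⟩
  · rw [e2]
    exact mul_mem (S₂.algebraMap_mem ((kt_mem₂_iff h _).mpr hq)) hi2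
  · rw [S₁.red_mul (S₁.algebraMap_mem hρA) hi1, kt_red_algebraMap_of_lt S₁ hρlt, zero_mul]
    exact KtVal.zero _
  · rw [e2, S₂.red_mul (S₂.algebraMap_mem ((kt_mem₂_iff h _).mpr hq)) hi2,
      kt_red₂_algebraMap h hk hq, S₂.red_inv hw1_mem hi2 hw1_0, hw1_red]
    have e4 : algebraMap k Fk₂ (kres S₁ (ρ / a)) * (-1 : Fk₂)⁻¹ =
        algebraMap k Fk₂ (-kres S₁ (ρ / a)) := by
      rw [map_neg, inv_neg, inv_one, mul_neg, mul_one]
    rw [e4]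
    exact KtVal.const _ _

end Explicit

end Fermat.Agent.PeuD
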