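/-
Row 38 (peu ramifiée, step (d)), K(u) side, lemma L3 (helper64), part 5: **the main theorem**.

`SlopeData S₁ S₂ u ϖ` (two Gauss valuations `|u| = 1`, `|u| = |ϖ|` of `F ⊇ K(u)`), `K`
algebraically closed.  `τ ∈ K(u)` integral at both valuations, with at most simple poles in the
open annulus `|ϖ| < |u| < 1`, at the points `a ∈ s`, residues `ρ a`, `|ρ a| ≤ |a|`.  Then

  `red₂ τ (ū' = 0) - red₁ τ (ū = 0) = - ∑_{a ∈ s} res (ρ a / a)`.

* `kt_glue`              : no poles in the open annulus, the two values agree;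
* `kt_partial_fractions` : the general statement, values in the sense of `KtVal`;
* `kt_partial_fractions_places` : the same at places `Q₁ | ū = 0`, `Q₂ | ū' = 0`.
-/
import Mathlib
import Fermat.Agent.Lib.BadRed.PeuD.KuPF.Units
import Fermat.Agent.E.Desc.Kp.Slope.NormAt
import Fermat.Agent.E.Desc.Kp.Slope.Main

set_option autoImplicit false
set_option linter.unusedSectionVars false
set_option linter.unusedVariables false

noncomputable section

namespace Fermat.Agent.PeuD

open Polynomial AlgebraicCurve Fermat.Agent.RR Fermat.Agent.FF Fermat.Agent.Deuring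
  Fermat.Agent.BadRed.SeedNode Fermat.Agent.EKp IntermediateField

variable {K F k Fk₁ Fk₂ : Type*} [Field K] [Field F] [Algebra K F]
  [Field k] [Field Fk₁] [Algebra k Fk₁] [Field Fk₂] [Algebra k Fk₂]
  {S₁ : ValSetup K F k Fk₁} {S₂ : ValSetup K F k Fk₂} {u : F} {ϖ : K}

/-- the open annulus `|ϖ| < |a| < 1`. -/
def KtMid (S₁ : ValSetup K F k Fk₁) (ϖ a : K) : Prop :=
  S₁.A.valuation ϖ < S₁.A.valuation a ∧ S₁.A.valuation a < 1

theorem KtMid.ne_zero {a : K} (ha : KtMid S₁ ϖ a) : a ≠ 0 := by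
  rintro rfl
  have := ha.1
  rw [map_zero] at this
  exact not_lt_zero this

section Places

variable (P : Place K F)

theorem kt_u_mem_place {a : K} (hP : 0 < P.ord (u - algebraMap K F a)) :
    u ∈ P.toValuationSubring := by
  have h1 : u - algebraMap K F a ∈ P.toValuationSubring :=
    Fermat.Agent.S24Res.mem_of_ord_nonneg P hP.le
  have := add_mem h1 (P.algebraMap_mem' a)
  rwa [sub_add_cancel] at this

/-- `u - b` is a unit at a place where `u = a ≠ b`. -/
theorem kt_ord_sub_eq_zero {a b : K} (hab : a ≠ b) (hP : 0 < P.ord (u - algebraMap K F a)) :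
    P.ord (u - algebraMap K F b) = 0 := by
  have e : u - algebraMap K F b = algebraMap K F (a - b) + (u - algebraMap K F a) := by
    rw [map_sub]
    ring
  rw [e]
  exact sl_ord_const_add P (sub_ne_zero.mpr hab) hP

theorem kt_inv_sub_mem_place {a b : K} (hab : a ≠ b) (hP : 0 < P.ord (u - algebraMap K F a)) :
    (u - algebraMap K F b)⁻¹ ∈ P.toValuationSubring := by
  apply Fermat.Agent.S24Res.mem_of_ord_nonneg
  rw [P.ord_inv, kt_ord_sub_eq_zero P hab hP, neg_zero]

theorem kt_uinv_mem_place {a : K} (ha : a ≠ 0) (hP : 0 < P.ord (u - algebraMap K F a)) :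
    u⁻¹ ∈ P.toValuationSubring := by
  have := kt_inv_sub_mem_place P ha hP
  rwa [map_zero, sub_zero] at this

end Places

/-- **no poles in the open annulus**: induction on the degree of the denominator. -/
theorem kt_glue_aux [IsAlgClosed K] (h : SlopeData S₁ S₂ u ϖ)
    (hk : ∀ c : K, kres S₁ c = kres S₂ c) :
    ∀ (n : ℕ) (q : K[X]), q.natDegree = n → q ≠ 0 → ∀ (m : ℕ) (p : K[X]) (τ : F),
      τ ∈ S₁.Ov → τ ∈ S₂.Ov → τ * aeval u q * u ^ m = aeval u p →
      (∀ (P : Place K F) (a : K), KtMid S₁ ϖ a → 0 < P.ord (u - algebraMap K F a) →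
        τ ∈ P.toValuationSubring) →
      ∃ c : k, KtPair S₁ S₂ u ϖ c c τ := by
  have hu : Transcendental K u := sl_transcendental_of_red S₁ h.u_mem h.u_tr
  have hu0 := kt_u_ne_zero h
  intro n
  induction n with
  | zero =>
    intro q hq hq0 m p τ h₁ h₂ hτ hreg
    obtain ⟨c₀, rfl⟩ : ∃ c₀ : K, q = C c₀ := ⟨_, eq_C_of_natDegree_eq_zero hq⟩
    have hc₀ : c₀ ≠ 0 := fun h0 => hq0 (by rw [h0, map_zero])
    have hc₀F : algebraMap K F c₀ ≠ 0 := (_root_.map_ne_zero _).mpr hc₀
    have e : τ * u ^ m = aeval u (C c₀⁻¹ * p) := by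
      rw [map_mul, aeval_C, ← hτ, aeval_C, map_inv₀]
      field_simp
    obtain ⟨hv1, hv2⟩ := kt_laurent h hk h₁ h₂ e
    exact ⟨_, h₁, h₂, hv1, hv2⟩
  | succ n ih =>
    intro q hq hq0 m p τ h₁ h₂ hτ hreg
    have hdeg : q.degree ≠ 0 := by
      rw [degree_eq_natDegree hq0, hq]
      exact_mod_cast Nat.succ_ne_zero n
    obtain ⟨d, hd⟩ := IsAlgClosed.exists_root q hdeg
    obtain ⟨q₁, hq₁⟩ := dvd_iff_isRoot.mpr hd
    have hq₁0 : q₁ ≠ 0 := by
      rintro rfl
      rw [mul_zero] at hq₁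
      exact hq0 hq₁
    have hq₁deg : q₁.natDegree = n := by
      have h1 := natDegree_mul (X_sub_C_ne_zero d) hq₁0
      rw [← hq₁, hq, natDegree_X_sub_C] at h1
      omega
    have hqe : aeval u q = (u - algebraMap K F d) * aeval u q₁ := by
      rw [hq₁, map_mul, map_sub, aeval_X, aeval_C]
    by_cases hd1 : 1 ≤ S₁.A.valuation d
    · -- a root outside
      have hd0 : d ≠ 0 := by
        rintro rfl
        rw [map_zero] at hd1
        exact absurd hd1 (not_le.mpr zero_lt_one)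
      have hdF : algebraMap K F d ≠ 0 := (_root_.map_ne_zero _).mpr hd0
      have hdinv : d⁻¹ ∈ S₁.A := by
        apply kt_mem_of_le
        rw [map_inv₀]
        exact inv_le_one_of_one_le₀ hd1
      have hE := kt_outer h hk hdinv
      set E : F := 1 - u * algebraMap K F d⁻¹ with hEdef
      have hE0 : E ≠ 0 :=
        S₁.ne_zero_of_red_ne_zero (KtVal.ne_zero h.u_tr one_ne_zero hE.2.2.1)
      have e1 : τ * E * aeval u q₁ * u ^ m = aeval u (C (-d⁻¹) * p) := by
        rw [map_mul, aeval_C, ← hτ, hqe, hEdef, map_neg, map_inv₀]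
        field_simp
        ring
      have hreg' : ∀ (P : Place K F) (a : K), KtMid S₁ ϖ a →
          0 < P.ord (u - algebraMap K F a) → τ * E ∈ P.toValuationSubring := by
        intro P a ha hP
        refine mul_mem (hreg P a ha hP) (sub_mem (one_mem _) (mul_mem (kt_u_mem_place P hP) ?_))
        exact P.algebraMap_mem' _
      obtain ⟨c, hc⟩ := ih q₁ hq₁deg hq₁0 m _ (τ * E) (mul_mem h₁ hE.1) (mul_mem h₂ hE.2.1)
        e1 hreg'
      refine ⟨c, ?_⟩
      have h2 := hc.mul (hE.inv h one_ne_zero one_ne_zero)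
      rwa [inv_one, mul_one, mul_assoc, mul_inv_cancel₀ hE0, mul_one] at h2
    · push Not at hd1
      by_cases hd2 : S₁.A.valuation d ≤ S₁.A.valuation ϖ
      · -- a root inside
        have hE := kt_inner h hk hd2
        set E : F := 1 - algebraMap K F d * u⁻¹ with hEdef
        have hE0 : E ≠ 0 :=
          S₁.ne_zero_of_red_ne_zero (KtVal.ne_zero h.u_tr one_ne_zero hE.2.2.1)
        have e1 : τ * E * aeval u q₁ * u ^ (m + 1) = aeval u p := by
          rw [← hτ, hqe, hEdef, pow_succ]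
          field_simp
        have hreg' : ∀ (P : Place K F) (a : K), KtMid S₁ ϖ a →
            0 < P.ord (u - algebraMap K F a) → τ * E ∈ P.toValuationSubring := by
          intro P a ha hP
          exact mul_mem (hreg P a ha hP) (sub_mem (one_mem _)
            (mul_mem (P.algebraMap_mem' _) (kt_uinv_mem_place P ha.ne_zero hP)))
        obtain ⟨c, hc⟩ := ih q₁ hq₁deg hq₁0 (m + 1) p (τ * E) (mul_mem h₁ hE.1)
          (mul_mem h₂ hE.2.1) e1 hreg'
        refine ⟨c, ?_⟩
        have h2 := hc.mul (hE.inv h one_ne_zero one_ne_zero)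
        rwa [inv_one, mul_one, mul_assoc, mul_inv_cancel₀ hE0, mul_one] at h2
      · -- a root in the open annulus: it cancels
        push Not at hd2
        have hmid : KtMid S₁ ϖ d := ⟨hd2, hd1⟩
        obtain ⟨P, hP⟩ := sl_exists_place S₁.hF hu d
        have hτP := hreg P d hmid hP
        have hud : u - algebraMap K F d ≠ 0 := by
          intro h0
          rw [h0] at hP
          simp at hP
        have hpd : p.IsRoot d := by
          by_contra hne
          have h0 : P.ord (aeval u p) = 0 := sl_ord_aeval_of_eval_ne P hP hne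
          have hp0 : aeval u p ≠ 0 := by
            intro h1
            have : p = 0 := (transcendental_iff.mp hu) p h1
            apply hne
            rw [this]
            exact IsRoot.def.mpr eval_zero
          have hrest : τ * aeval u q₁ * u ^ m ∈ P.toValuationSubring :=
            mul_mem (mul_mem hτP (kt_aeval_mem P (kt_u_mem_place P hP) q₁))
              (pow_mem (kt_u_mem_place P hP) m)
          have e2 : aeval u p = (u - algebraMap K F d) * (τ * aeval u q₁ * u ^ m) := by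
            rw [← hτ, hqe]
            ring
          have hrest0 : τ * aeval u q₁ * u ^ m ≠ 0 := by
            intro h1
            rw [e2, h1, mul_zero] at hp0
            exact hp0 rfl
          rw [e2, P.ord_mul hud hrest0] at h0
          have := Fermat.Agent.S24Res.ord_nonneg_of_mem P hrest
          omega
        obtain ⟨p₁, hp₁⟩ := dvd_iff_isRoot.mpr hpd
        have e1 : τ * aeval u q₁ * u ^ m = aeval u p₁ := by
          apply mul_left_cancel₀ hud
          have : aeval u p = (u - algebraMap K F d) * aeval u p₁ := by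
            rw [hp₁, map_mul, map_sub, aeval_X, aeval_C]
          rw [← this, ← hτ, hqe]
          ring
        exact ih q₁ hq₁deg hq₁0 m p₁ τ h₁ h₂ e1 hreg

/-- **no poles in the open annulus**: the two values agree. -/
theorem kt_glue [IsAlgClosed K] (h : SlopeData S₁ S₂ u ϖ)
    (hk : ∀ c : K, kres S₁ c = kres S₂ c) {τ : F} (hτ : τ ∈ K⟮u⟯) (h₁ : τ ∈ S₁.Ov)
    (h₂ : τ ∈ S₂.Ov)
    (hreg : ∀ (P : Place K F) (a : K), KtMid S₁ ϖ a → 0 < P.ord (u - algebraMap K F a) →
      τ ∈ P.toValuationSubring) :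
    ∃ c : k, KtPair S₁ S₂ u ϖ c c τ := by
  have hu : Transcendental K u := sl_transcendental_of_red S₁ h.u_mem h.u_tr
  obtain ⟨p, q, hpq⟩ := (IntermediateField.mem_adjoin_simple_iff K τ).mp hτ
  by_cases hq : q = 0
  · rw [hq, map_zero, div_zero] at hpq
    rw [hpq]
    exact ⟨0, KtPair.zero⟩
  have hqu : aeval u q ≠ 0 := fun h0 => hq ((transcendental_iff.mp hu) q h0)
  refine kt_glue_aux h hk q.natDegree q rfl hq 0 p τ h₁ h₂ ?_ hreg
  rw [pow_zero, mul_one, hpq, div_mul_cancel₀ _ hqu]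

/-- the polar part at the points of `s`. -/
def ktPolar (u : F) (s : Finset K) (ρ : K → K) : F :=
  ∑ a ∈ s, algebraMap K F (ρ a) * (u - algebraMap K F a)⁻¹

theorem ktPolar_mem_adjoin (s : Finset K) (ρ : K → K) : ktPolar u s ρ ∈ K⟮u⟯ := by
  unfold ktPolar
  refine sum_mem fun a _ => mul_mem (IntermediateField.algebraMap_mem _ _) (inv_mem ?_)
  exact sub_mem (mem_adjoin_simple_self K u) (IntermediateField.algebraMap_mem _ _)

/-- the polar part is regular at the places where `u = a ∉ s`. -/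
theorem ktPolar_mem_place (P : Place K F) (s : Finset K) (ρ : K → K) {a : K} (ha : a ∉ s)
    (hP : 0 < P.ord (u - algebraMap K F a)) : ktPolar u s ρ ∈ P.toValuationSubring := by
  unfold ktPolar
  refine sum_mem fun b hb => mul_mem (P.algebraMap_mem' _) (kt_inv_sub_mem_place P ?_ hP)
  rintro rfl
  exact ha hb

theorem ktPolar_pair (h : SlopeData S₁ S₂ u ϖ) (hk : ∀ c : K, kres S₁ c = kres S₂ c)
    (s : Finset K) (ρ : K → K) (hs : ∀ a ∈ s, KtMid S₁ ϖ a)
    (hρ : ∀ a ∈ s, S₁.A.valuation (ρ a) ≤ S₁.A.valuation a) :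
    KtPair S₁ S₂ u ϖ 0 (-∑ a ∈ s, kres S₁ (ρ a / a)) (ktPolar u s ρ) := by
  have := KtPair.sum s (fun _ => (0 : k)) (fun a => -kres S₁ (ρ a / a))
    (fun a => algebraMap K F (ρ a) * (u - algebraMap K F a)⁻¹)
    (fun a ha => kt_mid h hk (hs a ha).1 (hs a ha).2 (hρ a ha))
  rwa [Finset.sum_const_zero, Finset.sum_neg_distrib] at this

/-- `(u - a) · (polar part) = ρ a + (u - a) · (regular)` at a place where `u = a ∈ s`. -/
theorem ktPolar_residue (h : IsRRField K F) (P : Place K F) (s : Finset K) (ρ : K → K) {a : K}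
    (ha : a ∈ s) (hP : 0 < P.ord (u - algebraMap K F a)) :
    (u - algebraMap K F a) * ktPolar u s ρ ∈ P.toValuationSubring ∧
      valueAt h P ((u - algebraMap K F a) * ktPolar u s ρ) = ρ a := by
  classical
  have hud : u - algebraMap K F a ≠ 0 := by
    intro h0
    rw [h0] at hP
    simp at hP
  have hm : u - algebraMap K F a ∈ P.toValuationSubring :=
    Fermat.Agent.S24Res.mem_of_ord_nonneg P hP.le
  have hv0 : valueAt h P (u - algebraMap K F a) = 0 :=
    (valueAt_eq_zero_iff h P hm).mpr (Or.inr hP)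
  have hrest : ktPolar u (s.erase a) ρ ∈ P.toValuationSubring :=
    ktPolar_mem_place P (s.erase a) ρ (Finset.notMem_erase a s) hP
  have e : (u - algebraMap K F a) * ktPolar u s ρ =
      algebraMap K F (ρ a) + (u - algebraMap K F a) * ktPolar u (s.erase a) ρ := by
    unfold ktPolar
    rw [← Finset.add_sum_erase s _ ha, mul_add]
    congr 1
    field_simp
  rw [e]
  refine ⟨add_mem (P.algebraMap_mem' _) (mul_mem hm hrest), ?_⟩
  rw [valueAt_add h P (P.algebraMap_mem' _) (mul_mem hm hrest), valueAt_algebraMap,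
    valueAt_mul h P hm hrest, hv0, zero_mul, add_zero]

/-- **L3: first-order partial fractions in `K(u)`.**  `τ ∈ K(u)` integral at both Gauss
valuations, regular at the places above the open annulus outside `s`, with at most simple poles
with residues `ρ a` above `a ∈ s`, `|ρ a| ≤ |a|`: the values of the two reductions at the node
differ by `- ∑ res (ρ a / a)`. -/
theorem kt_partial_fractions [IsAlgClosed K] (h : SlopeData S₁ S₂ u ϖ)
    (hk : ∀ c : K, kres S₁ c = kres S₂ c) {τ : F} (hτ : τ ∈ K⟮u⟯) (h₁ : τ ∈ S₁.Ov)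
    (h₂ : τ ∈ S₂.Ov) (s : Finset K) (ρ : K → K) (hs : ∀ a ∈ s, KtMid S₁ ϖ a)
    (hρ : ∀ a ∈ s, S₁.A.valuation (ρ a) ≤ S₁.A.valuation a)
    (hreg : ∀ (P : Place K F) (a : K), KtMid S₁ ϖ a → a ∉ s →
      0 < P.ord (u - algebraMap K F a) → 0 ≤ P.ord τ)
    (hres : ∀ a ∈ s, ∃ P : Place K F, 0 < P.ord (u - algebraMap K F a) ∧
      0 ≤ P.ord ((u - algebraMap K F a) * τ) ∧
      valueAt S₁.hF P ((u - algebraMap K F a) * τ) = ρ a) :
    ∃ c : k, KtPair S₁ S₂ u ϖ c (c - ∑ a ∈ s, kres S₁ (ρ a / a)) τ := by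
  have hu : Transcendental K u := sl_transcendental_of_red S₁ h.u_mem h.u_tr
  have hT := ktPolar_pair h hk s ρ hs hρ
  -- it suffices to treat `τ' = τ - T`
  suffices hsuff : ∃ c : k, KtPair S₁ S₂ u ϖ c c (τ - ktPolar u s ρ) by
    obtain ⟨c, hc⟩ := hsuff
    refine ⟨c, ?_⟩
    have := hc.add hT
    rwa [sub_add_cancel, add_zero, ← sub_eq_add_neg] at this
  have hτ' : τ - ktPolar u s ρ ∈ K⟮u⟯ := sub_mem hτ (ktPolar_mem_adjoin s ρ)
  obtain ⟨p, q, hpq⟩ := (IntermediateField.mem_adjoin_simple_iff K _).mp hτ'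
  by_cases hzero : τ - ktPolar u s ρ = 0
  · rw [hzero]
    exact ⟨0, KtPair.zero⟩
  have hq : q ≠ 0 := by
    rintro rfl
    rw [map_zero, div_zero] at hpq
    exact hzero hpq
  have hp : p ≠ 0 := by
    rintro rfl
    rw [map_zero, zero_div] at hpq
    exact hzero hpq
  have hqu : aeval u q ≠ 0 := fun h0 => hq ((transcendental_iff.mp hu) q h0)
  refine kt_glue_aux h hk q.natDegree q rfl hq 0 p _ (sub_mem h₁ hT.1) (sub_mem h₂ hT.2.1) ?_ ?_
  · rw [pow_zero, mul_one, hpq, div_mul_cancel₀ _ hqu]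
  intro P a ha hP
  by_cases has : a ∈ s
  · -- a simple pole with the right residue cancels
    obtain ⟨P₀, hP₀, hreg₀, hval₀⟩ := hres a has
    have hud : u - algebraMap K F a ≠ 0 := by
      intro h0
      rw [h0] at hP
      simp at hP
    have hm₀ : (u - algebraMap K F a) * τ ∈ P₀.toValuationSubring :=
      Fermat.Agent.S24Res.mem_of_ord_nonneg P₀ hreg₀
    obtain ⟨hTm, hTv⟩ := ktPolar_residue S₁.hF P₀ s ρ has hP₀
    have hW : (u - algebraMap K F a) * (τ - ktPolar u s ρ) ∈ P₀.toValuationSubring := by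
      rw [mul_sub]
      exact sub_mem hm₀ hTm
    have hWv : valueAt S₁.hF P₀ ((u - algebraMap K F a) * (τ - ktPolar u s ρ)) = 0 := by
      rw [mul_sub, valueAt_sub S₁.hF P₀ hm₀ hTm, hval₀, hTv, sub_self]
    have hW0 : (u - algebraMap K F a) * (τ - ktPolar u s ρ) ≠ 0 := mul_ne_zero hud hzero
    have hWord : 0 < P₀.ord ((u - algebraMap K F a) * (τ - ktPolar u s ρ)) := by
      rcases (valueAt_eq_zero_iff S₁.hF P₀ hW).mp hWv with h0 | h0
      · exact absurd h0 hW0
      · exact h0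
    rw [P₀.ord_mul hud hzero] at hWord
    have ho₀ := sl_ord_ratio P₀ hu hP₀ hp hq
    have ho := sl_ord_ratio P hu hP hp hq
    rw [← hpq] at ho₀ ho
    rw [ho₀] at hWord
    apply Fermat.Agent.S24Res.mem_of_ord_nonneg
    rw [ho]
    have hnn : (0 : ℤ) ≤ (p.rootMultiplicity a : ℤ) - q.rootMultiplicity a := by
      by_contra hneg
      push Not at hneg
      have h3 : ((p.rootMultiplicity a : ℤ) - q.rootMultiplicity a) *
          P₀.ord (u - algebraMap K F a) ≤ -P₀.ord (u - algebraMap K F a) := by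
        nlinarith
      omega
    exact mul_nonneg hnn hP.le
  · exact sub_mem (Fermat.Agent.S24Res.mem_of_ord_nonneg P (hreg P a ha has hP))
      (ktPolar_mem_place P s ρ has hP)

/-- **L3 at places**: the same with the values at places `Q₁ | ū = 0` and `Q₂ | ū' = 0`. -/
theorem kt_partial_fractions_places [IsAlgClosed K] (h : SlopeData S₁ S₂ u ϖ)
    (hk : ∀ c : K, kres S₁ c = kres S₂ c) {τ : F} (hτ : τ ∈ K⟮u⟯) (h₁ : τ ∈ S₁.Ov)
    (h₂ : τ ∈ S₂.Ov) (s : Finset K) (ρ : K → K) (hs : ∀ a ∈ s, KtMid S₁ ϖ a)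
    (hρ : ∀ a ∈ s, S₁.A.valuation (ρ a) ≤ S₁.A.valuation a)
    (hreg : ∀ (P : Place K F) (a : K), KtMid S₁ ϖ a → a ∉ s →
      0 < P.ord (u - algebraMap K F a) → 0 ≤ P.ord τ)
    (hres : ∀ a ∈ s, ∃ P : Place K F, 0 < P.ord (u - algebraMap K F a) ∧
      0 ≤ P.ord ((u - algebraMap K F a) * τ) ∧
      valueAt S₁.hF P ((u - algebraMap K F a) * τ) = ρ a)
    (Q₁ : Place k Fk₁) (hQ₁ : 0 < Q₁.ord (S₁.red u))
    (Q₂ : Place k Fk₂) (hQ₂ : 0 < Q₂.ord (S₂.red (algebraMap K F ϖ / u))) :
    0 ≤ Q₁.ord (S₁.red τ) ∧ 0 ≤ Q₂.ord (S₂.red τ) ∧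
      valueAt S₂.hFk Q₂ (S₂.red τ) - valueAt S₁.hFk Q₁ (S₁.red τ) =
        -∑ a ∈ s, kres S₁ (ρ a / a) := by
  obtain ⟨c, -, -, hc₁, hc₂⟩ := kt_partial_fractions h hk hτ h₁ h₂ s ρ hs hρ hreg hres
  obtain ⟨ho₁, hv₁⟩ := hc₁.at_place S₁.hFk h.u_tr Q₁ hQ₁
  obtain ⟨ho₂, hv₂⟩ := hc₂.at_place S₂.hFk h.u_tr₂ Q₂ hQ₂
  refine ⟨ho₁, ho₂, ?_⟩
  rw [hv₁, hv₂]
  ring

end Fermat.Agent.PeuD
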